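import Mathlib

/-!
# Row LT, tower T1 (volunteer helper729): local Iwasawa decompositions for `GL₂`, Mathlib only

OFF-MAIN.  Pure algebra, no definitions of ours beyond two small predicates.

* `exists_sl2_integral_kill729` : for a field `k` with a valuation subring `O` and a row `(c, d)`
  there is `κ ∈ SL₂(O)` with `(c, d) κ = (0, *)`.
* `exists_su2_kill729` : for a row `(c, d)` of complex numbers there is a unitary matrix `κ` of
  determinant one, with entries in any subfield-like set `S ⊆ ℂ` stable under conjugation and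
  containing the real numbers and `c`, `d`, such that `(c, d) κ = (0, *)`.
-/

set_option autoImplicit false

namespace Fermat.Agent.LT.T1.H729

open Matrix

/-- Non-archimedean local step of the Iwasawa decomposition: a row `(c, d)` over the fraction
field of a valuation ring `O` is moved to `(0, *)` by a matrix of `SL₂(O)`. -/
theorem exists_sl2_integral_kill729 {k : Type*} [Field k] (O : ValuationSubring k) (c d : k) :
    ∃ p q r s : k, p ∈ O ∧ q ∈ O ∧ r ∈ O ∧ s ∈ O ∧ p * s - q * r = 1 ∧ c * p + d * r = 0 := by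
  by_cases hc : c = 0
  · exact ⟨1, 0, 0, 1, O.one_mem, O.zero_mem, O.zero_mem, O.one_mem, by simp, by simp [hc]⟩
  by_cases hd : d = 0
  · exact ⟨0, -1, 1, 0, O.zero_mem, O.neg_mem _ O.one_mem, O.one_mem, O.zero_mem, by simp,
      by simp [hd]⟩
  rcases O.mem_or_inv_mem (d / c) with h | h
  · refine ⟨-(d / c), -1, 1, 0, O.neg_mem _ h, O.neg_mem _ O.one_mem, O.one_mem, O.zero_mem,
      by simp, ?_⟩
    field_simp
    ring
  · have h' : c / d ∈ O := by simpa [inv_div] using h
    refine ⟨1, 0, -(c / d), 1, O.one_mem, O.zero_mem, O.neg_mem _ h', O.one_mem, by simp, ?_⟩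
    field_simp
    ring

/-- Archimedean local step of the Iwasawa decomposition: a non-zero row `(c, d)` of complex
numbers is moved to `(0, *)` by a special unitary matrix `!![p, q; r, s]`; its entries are
`d / ρ`, `conj c / ρ`, `- c / ρ`, `conj d / ρ` with `ρ = √(|c|² + |d|²)`. -/
theorem exists_su2_kill729 (c d : ℂ) (h : c ≠ 0 ∨ d ≠ 0) :
    ∃ ρ : ℝ, 0 < ρ ∧
      (!![d / ρ, (starRingEnd ℂ) c / ρ; -c / ρ, (starRingEnd ℂ) d / ρ] : Matrix (Fin 2) (Fin 2) ℂ) *
        (!![d / ρ, (starRingEnd ℂ) c / ρ; -c / ρ, (starRingEnd ℂ) d / ρ] :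
          Matrix (Fin 2) (Fin 2) ℂ).conjTranspose = 1 ∧
      (!![d / ρ, (starRingEnd ℂ) c / ρ; -c / ρ, (starRingEnd ℂ) d / ρ] :
          Matrix (Fin 2) (Fin 2) ℂ).det = 1 ∧
      c * (d / ρ) + d * (-c / ρ) = 0 := by
  have hpos : 0 < Complex.normSq c + Complex.normSq d := by
    rcases h with h | h
    · have := Complex.normSq_pos.mpr h
      have := Complex.normSq_nonneg d
      linarith
    · have := Complex.normSq_pos.mpr h
      have := Complex.normSq_nonneg c
      linarith
  set ρ : ℝ := Real.sqrt (Complex.normSq c + Complex.normSq d) with hρ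
  have hρpos : 0 < ρ := Real.sqrt_pos.mpr hpos
  have hρ2 : ρ * ρ = Complex.normSq c + Complex.normSq d := Real.mul_self_sqrt hpos.le
  have hρC : (ρ : ℂ) ≠ 0 := by exact_mod_cast hρpos.ne'
  have hρ2C : (ρ : ℂ) * ρ = c * (starRingEnd ℂ) c + d * (starRingEnd ℂ) d := by
    rw [Complex.mul_conj, Complex.mul_conj]
    exact_mod_cast hρ2
  have hconjρ : (starRingEnd ℂ) (ρ : ℂ) = ρ := Complex.conj_ofReal ρ
  refine ⟨ρ, hρpos, ?_, ?_, ?_⟩
  · ext i j
    fin_cases i <;> fin_cases j <;>
      simp [Matrix.mul_apply, Fin.sum_univ_two, Matrix.conjTranspose_apply, hconjρ] <;>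
      field_simp <;>
      first
        | ring1
        | linear_combination hρ2C
        | linear_combination (-1 : ℂ) * hρ2C
  · rw [Matrix.det_fin_two_of]
    field_simp
    first
      | linear_combination hρ2C
      | linear_combination (-1 : ℂ) * hρ2C
  · field_simp
    ring

/-- The unitary matrix of the archimedean Iwasawa step, in the form used for `κ` itself:
`κ = ρ⁻¹ !![conj d, - conj c; c, d]` is special unitary when `ρ² = |c|² + |d|²`. -/
theorem su2_of_row729 (c d : ℂ) (ρ : ℝ) (hρC : (ρ : ℂ) ≠ 0)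
    (hρ2C : (ρ : ℂ) * ρ = c * (starRingEnd ℂ) c + d * (starRingEnd ℂ) d) :
    (!![(starRingEnd ℂ) d / ρ, -(starRingEnd ℂ) c / ρ; c / ρ, d / ρ] : Matrix (Fin 2) (Fin 2) ℂ) *
        (!![(starRingEnd ℂ) d / ρ, -(starRingEnd ℂ) c / ρ; c / ρ, d / ρ] :
          Matrix (Fin 2) (Fin 2) ℂ).conjTranspose = 1 ∧
      (!![(starRingEnd ℂ) d / ρ, -(starRingEnd ℂ) c / ρ; c / ρ, d / ρ] :
          Matrix (Fin 2) (Fin 2) ℂ).det = 1 := by
  have hconjρ : (starRingEnd ℂ) (ρ : ℂ) = ρ := Complex.conj_ofReal ρ
  refine ⟨?_, ?_⟩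
  · ext i j
    fin_cases i <;> fin_cases j <;>
      simp [Matrix.mul_apply, Fin.sum_univ_two, Matrix.conjTranspose_apply, hconjρ] <;>
      field_simp <;>
      first
        | ring1
        | linear_combination hρ2C
        | linear_combination (-1 : ℂ) * hρ2C
  · rw [Matrix.det_fin_two_of]
    field_simp
    first
      | linear_combination hρ2C
      | linear_combination (-1 : ℂ) * hρ2C

/-- Existence of the radius `ρ` for a non-zero row. -/
theorem exists_radius729 (c d : ℂ) (h : c ≠ 0 ∨ d ≠ 0) :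
    ∃ ρ : ℝ, 0 < ρ ∧ (ρ : ℂ) * ρ = c * (starRingEnd ℂ) c + d * (starRingEnd ℂ) d := by
  have hpos : 0 < Complex.normSq c + Complex.normSq d := by
    rcases h with h | h
    · have := Complex.normSq_pos.mpr h
      have := Complex.normSq_nonneg d
      linarith
    · have := Complex.normSq_pos.mpr h
      have := Complex.normSq_nonneg c
      linarith
  refine ⟨Real.sqrt (Complex.normSq c + Complex.normSq d), Real.sqrt_pos.mpr hpos, ?_⟩
  rw [Complex.mul_conj, Complex.mul_conj]
  exact_mod_cast Real.mul_self_sqrt hpos.le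

end Fermat.Agent.LT.T1.H729
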