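import Mathlib
import Fermat.Agent.LT.H556.A0
import Fermat.Agent.LT.T1.H729.IwasawaLocal

/-!
# Row LT, tower T1 (volunteer helper729): the Iwasawa decomposition of `GL₂(𝔸_K)`

OFF-MAIN.  Vocabulary of `LT/H556/A0.lean` (`G K`, `Adl K`, `finComp`, `infComp`, `IsIntegralAt`).

`iwasawa729 : ∀ g : G K, ∃ b κ : G K, g = b * κ ∧ b₁₀ = 0 ∧ InMaxCompact729 κ`, where
`InMaxCompact729 κ` says: `κ` and `κ⁻¹` are integral at every finite place, and at every infinite
place the matrix of `κ` is unitary of determinant one (`SU(2)` at a complex place, `SO(2)` at a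
real place).
-/

set_option autoImplicit false

open IsDedekindDomain NumberField
open Fermat.Agent.LT.H556.A0

noncomputable section

namespace Fermat.Agent.LT.T1.H729

set_option linter.unusedSectionVars false

variable {K : Type} [Field K] [NumberField K]

/-! ## Components of adeles -/

/-- The component at the infinite place `w`, as a ring homomorphism. -/
def projInf729 (w : InfinitePlace K) : Adl K →+* w.Completion :=
  (Pi.evalRingHom (fun w : InfinitePlace K => w.Completion) w).comp
    (RingHom.fst (InfiniteAdeleRing K) (FiniteAdeleRing (𝓞 K) K))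

/-- The component at the finite place `v`, as a ring homomorphism. -/
def projFin729 (v : HeightOneSpectrum (𝓞 K)) : Adl K →+* v.adicCompletion K :=
  (RestrictedProduct.evalRingHom (fun v : HeightOneSpectrum (𝓞 K) => v.adicCompletion K) v).comp
    (RingHom.snd (InfiniteAdeleRing K) (FiniteAdeleRing (𝓞 K) K))

@[simp] theorem projInf729_apply (w : InfinitePlace K) (x : Adl K) : projInf729 w x = x.1 w := rfl

@[simp] theorem projFin729_apply (v : HeightOneSpectrum (𝓞 K)) (x : Adl K) :
    projFin729 v x = x.2 v := rfl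

@[simp] theorem neg_inf729 (w : InfinitePlace K) (x : Adl K) : (-x).1 w = -(x.1 w) :=
  map_neg (projInf729 w) x

@[simp] theorem neg_fin729 (v : HeightOneSpectrum (𝓞 K)) (x : Adl K) : (-x).2 v = -(x.2 v) :=
  map_neg (projFin729 v) x

/-- Two adeles with the same components are equal. -/
theorem adl_ext729 {x y : Adl K} (hinf : ∀ w : InfinitePlace K, x.1 w = y.1 w)
    (hfin : ∀ v : HeightOneSpectrum (𝓞 K), x.2 v = y.2 v) : x = y :=
  Prod.ext (funext hinf) (FiniteAdeleRing.ext K hfin)

/-- The adele with prescribed components, integral at every finite place. -/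
def mkAdl729 (xinf : ∀ w : InfinitePlace K, w.Completion)
    (xfin : ∀ v : HeightOneSpectrum (𝓞 K), v.adicCompletion K)
    (h : ∀ v, xfin v ∈ v.adicCompletionIntegers K) : Adl K :=
  (xinf, ⟨xfin, Filter.Eventually.of_forall h⟩)

@[simp] theorem mkAdl729_inf (xinf : ∀ w : InfinitePlace K, w.Completion)
    (xfin : ∀ v : HeightOneSpectrum (𝓞 K), v.adicCompletion K)
    (h : ∀ v, xfin v ∈ v.adicCompletionIntegers K) (w : InfinitePlace K) :
    (mkAdl729 xinf xfin h).1 w = xinf w := rfl

@[simp] theorem mkAdl729_fin (xinf : ∀ w : InfinitePlace K, w.Completion)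
    (xfin : ∀ v : HeightOneSpectrum (𝓞 K), v.adicCompletion K)
    (h : ∀ v, xfin v ∈ v.adicCompletionIntegers K) (v : HeightOneSpectrum (𝓞 K)) :
    (mkAdl729 xinf xfin h).2 v = xfin v := rfl

/-- Two adelic matrices with the same local components are equal. -/
theorem adlMatrix_ext729 {M N : Matrix (Fin 2) (Fin 2) (Adl K)}
    (hinf : ∀ w : InfinitePlace K, (projInf729 w).mapMatrix M = (projInf729 w).mapMatrix N)
    (hfin : ∀ v : HeightOneSpectrum (𝓞 K), (projFin729 v).mapMatrix M = (projFin729 v).mapMatrix N) :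
    M = N := by
  ext i j
  refine adl_ext729 (fun w => ?_) (fun v => ?_)
  · have := congrFun (congrFun (hinf w) i) j
    simpa using this
  · have := congrFun (congrFun (hfin v) i) j
    simpa using this

/-! ## Preimages under the extension embedding -/

open InfinitePlace.Completion in
/-- Every real number is in the image of the extension embedding of an infinite place. -/
theorem exists_extEmb_eq_ofReal729 (w : InfinitePlace K) (t : ℝ) :
    ∃ x : w.Completion, extensionEmbedding w x = (t : ℂ) := by
  rcases w.isReal_or_isComplex with hw | hw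
  · obtain ⟨x, hx⟩ := surjective_extensionEmbeddingOfIsReal hw t
    exact ⟨x, by rw [← extensionEmbeddingOfIsReal_apply hw, hx]⟩
  · exact surjective_extensionEmbedding_of_isComplex hw _

open InfinitePlace.Completion in
/-- The image of the extension embedding of an infinite place is stable under conjugation. -/
theorem exists_extEmb_eq_conj729 (w : InfinitePlace K) (x : w.Completion) :
    ∃ y : w.Completion, extensionEmbedding w y = (starRingEnd ℂ) (extensionEmbedding w x) := by
  rcases w.isReal_or_isComplex with hw | hw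
  · exact ⟨x, by rw [← extensionEmbeddingOfIsReal_apply hw, Complex.conj_ofReal]⟩
  · exact surjective_extensionEmbedding_of_isComplex hw _

/-! ## Local data -/

open InfinitePlace.Completion in
/-- Local Iwasawa datum at an infinite place: `!![P, Q; R, S]` has determinant one, moves the row
`(c, d)` to `(0, *)`, and its inverse `!![S, -Q; -R, P]` is special unitary. -/
theorem exists_local_inf729 (w : InfinitePlace K) (c d : w.Completion) (h : c ≠ 0 ∨ d ≠ 0) :
    ∃ P Q R S : w.Completion, P * S - Q * R = 1 ∧ c * P + d * R = 0 ∧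
      (!![extensionEmbedding w S, -extensionEmbedding w Q;
          -extensionEmbedding w R, extensionEmbedding w P] : Matrix (Fin 2) (Fin 2) ℂ) *
        (!![extensionEmbedding w S, -extensionEmbedding w Q;
          -extensionEmbedding w R, extensionEmbedding w P] :
            Matrix (Fin 2) (Fin 2) ℂ).conjTranspose = 1 ∧
      (!![extensionEmbedding w S, -extensionEmbedding w Q;
          -extensionEmbedding w R, extensionEmbedding w P] : Matrix (Fin 2) (Fin 2) ℂ).det = 1 := by
  set ι := extensionEmbedding w with hι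
  have hinj : Function.Injective ι := ι.injective
  have h' : ι c ≠ 0 ∨ ι d ≠ 0 := by
    rcases h with h | h
    · exact Or.inl (fun h0 => h (hinj (by rw [h0, map_zero])))
    · exact Or.inr (fun h0 => h (hinj (by rw [h0, map_zero])))
  obtain ⟨ρ, hρpos, hρ2⟩ := exists_radius729 (ι c) (ι d) h'
  have hρC : (ρ : ℂ) ≠ 0 := by exact_mod_cast hρpos.ne'
  obtain ⟨ρi, hρi0⟩ := exists_extEmb_eq_ofReal729 w ρ⁻¹
  obtain ⟨cb, hcb0⟩ := exists_extEmb_eq_conj729 w c
  obtain ⟨db, hdb0⟩ := exists_extEmb_eq_conj729 w d
  have hρi : ι ρi = ((ρ⁻¹ : ℝ) : ℂ) := hρi0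
  have hcb : ι cb = (starRingEnd ℂ) (ι c) := hcb0
  have hdb : ι db = (starRingEnd ℂ) (ι d) := hdb0
  have hρi' : ι ρi = (ρ : ℂ)⁻¹ := by rw [hρi]; push_cast; rfl
  obtain ⟨hU, hD⟩ := su2_of_row729 (ι c) (ι d) ρ hρC hρ2
  have e1 : ι (db * ρi) = (starRingEnd ℂ) (ι d) / ρ := by
    rw [map_mul, hdb, hρi', div_eq_mul_inv]
  have e2 : -ι (cb * ρi) = -(starRingEnd ℂ) (ι c) / ρ := by
    rw [map_mul, hcb, hρi', div_eq_mul_inv, neg_mul]
  have e3 : -ι (-c * ρi) = ι c / ρ := by
    rw [map_mul, map_neg, hρi', div_eq_mul_inv, neg_mul, neg_neg]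
  have e4 : ι (d * ρi) = ι d / ρ := by
    rw [map_mul, hρi', div_eq_mul_inv]
  refine ⟨d * ρi, cb * ρi, -c * ρi, db * ρi, ?_, by ring, ?_, ?_⟩
  · apply hinj
    have hdet := hD
    rw [Matrix.det_fin_two_of] at hdet
    simp only [map_sub, map_mul, map_neg, map_one, hdb, hcb, hρi']
    rw [← hdet]
    field_simp
  · rw [e1, e2, e3, e4]; exact hU
  · rw [e1, e2, e3, e4]; exact hD

/-- Local Iwasawa datum at a finite place. -/
theorem exists_local_fin729 (v : HeightOneSpectrum (𝓞 K)) (c d : v.adicCompletion K) :
    ∃ P Q R S : v.adicCompletion K,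
      P ∈ v.adicCompletionIntegers K ∧ Q ∈ v.adicCompletionIntegers K ∧
      R ∈ v.adicCompletionIntegers K ∧ S ∈ v.adicCompletionIntegers K ∧
      P * S - Q * R = 1 ∧ c * P + d * R = 0 :=
  exists_sl2_integral_kill729 (v.adicCompletionIntegers K) c d

/-! ## The maximal compact subgroup and the global statement -/

/-- `κ` lies in the standard maximal compact subgroup of `GL₂(𝔸_K)`, connected at infinity:
`κ` and `κ⁻¹` are integral at every finite place; at every infinite place the matrix of `κ` is
unitary of determinant one (`SU(2)` at a complex place, `SO(2)` at a real place). -/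
def InMaxCompact729 (κ : G K) : Prop :=
  (∀ v : HeightOneSpectrum (𝓞 K), IsIntegralAt v κ ∧ IsIntegralAt v κ⁻¹) ∧
    ∀ w : InfinitePlace K,
      infComp w κ * (infComp w κ).conjTranspose = 1 ∧ (infComp w κ).det = 1

/-- The row `(g₁₀, g₁₁)` of an invertible adelic matrix is non-zero at every infinite place. -/
theorem row_ne_zero_inf729 (g : G K) (w : InfinitePlace K) :
    ((g : Matrix (Fin 2) (Fin 2) (Adl K)) 1 0).1 w ≠ 0 ∨
      ((g : Matrix (Fin 2) (Fin 2) (Adl K)) 1 1).1 w ≠ 0 := by
  by_contra hcon
  rw [not_or, not_not, not_not] at hcon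
  obtain ⟨h0, h1⟩ := hcon
  have hmul : (g : Matrix (Fin 2) (Fin 2) (Adl K)) * ((g⁻¹ : G K) : Matrix (Fin 2) (Fin 2) (Adl K))
      = 1 := by
    rw [← Units.val_mul, mul_inv_cancel, Units.val_one]
  have h11 := congrFun (congrFun hmul 1) 1
  rw [Matrix.mul_apply, Fin.sum_univ_two, Matrix.one_apply_eq] at h11
  have := congrArg (projInf729 w) h11
  simp only [map_add, map_mul, projInf729_apply, map_one, h0, h1, zero_mul, add_zero] at this
  exact zero_ne_one this

/-- THE IWASAWA DECOMPOSITION of `GL₂(𝔸_K)`: every `g` is `b κ` with `b` upper triangular and `κ`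
in the standard maximal compact subgroup (connected at infinity). -/
theorem iwasawa729 (g : G K) :
    ∃ b κ : G K, g = b * κ ∧ (b : Matrix (Fin 2) (Fin 2) (Adl K)) 1 0 = 0 ∧
      InMaxCompact729 κ := by
  classical
  -- local data
  have hinf : ∀ w : InfinitePlace K, ∃ P Q R S : w.Completion, P * S - Q * R = 1 ∧
      ((g : Matrix (Fin 2) (Fin 2) (Adl K)) 1 0).1 w * P +
        ((g : Matrix (Fin 2) (Fin 2) (Adl K)) 1 1).1 w * R = 0 ∧
      (!![InfinitePlace.Completion.extensionEmbedding w S,
            -InfinitePlace.Completion.extensionEmbedding w Q;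
          -InfinitePlace.Completion.extensionEmbedding w R,
            InfinitePlace.Completion.extensionEmbedding w P] : Matrix (Fin 2) (Fin 2) ℂ) *
        (!![InfinitePlace.Completion.extensionEmbedding w S,
            -InfinitePlace.Completion.extensionEmbedding w Q;
          -InfinitePlace.Completion.extensionEmbedding w R,
            InfinitePlace.Completion.extensionEmbedding w P] :
            Matrix (Fin 2) (Fin 2) ℂ).conjTranspose = 1 ∧
      (!![InfinitePlace.Completion.extensionEmbedding w S,
            -InfinitePlace.Completion.extensionEmbedding w Q;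
          -InfinitePlace.Completion.extensionEmbedding w R,
            InfinitePlace.Completion.extensionEmbedding w P] :
            Matrix (Fin 2) (Fin 2) ℂ).det = 1 :=
    fun w => exists_local_inf729 w _ _ (row_ne_zero_inf729 g w)
  have hfin : ∀ v : HeightOneSpectrum (𝓞 K), ∃ P Q R S : v.adicCompletion K,
      P ∈ v.adicCompletionIntegers K ∧ Q ∈ v.adicCompletionIntegers K ∧
      R ∈ v.adicCompletionIntegers K ∧ S ∈ v.adicCompletionIntegers K ∧
      P * S - Q * R = 1 ∧
      ((g : Matrix (Fin 2) (Fin 2) (Adl K)) 1 0).2 v * P +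
        ((g : Matrix (Fin 2) (Fin 2) (Adl K)) 1 1).2 v * R = 0 :=
    fun v => exists_local_fin729 v _ _
  choose Pi Qi Ri Si hdi hri hUi hDi using hinf
  choose Pf Qf Rf Sf hP hQ hR hS hdf hrf using hfin
  -- the adelic entries
  set P : Adl K := mkAdl729 Pi Pf hP with hPdef
  set Q : Adl K := mkAdl729 Qi Qf hQ with hQdef
  set R : Adl K := mkAdl729 Ri Rf hR with hRdef
  set S : Adl K := mkAdl729 Si Sf hS with hSdef
  have hdet : P * S - Q * R = 1 := by
    refine adl_ext729 (fun w => ?_) (fun v => ?_)
    · exact hdi w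
    · exact hdf v
  have hrow : (g : Matrix (Fin 2) (Fin 2) (Adl K)) 1 0 * P +
      (g : Matrix (Fin 2) (Fin 2) (Adl K)) 1 1 * R = 0 := by
    refine adl_ext729 (fun w => ?_) (fun v => ?_)
    · exact hri w
    · exact hrf v
  have h1 : (!![S, -Q; -R, P] : Matrix (Fin 2) (Fin 2) (Adl K)) * !![P, Q; R, S] = 1 := by
    ext i j
    fin_cases i <;> fin_cases j <;>
      simp [Matrix.mul_apply, Fin.sum_univ_two] <;>
      first
        | ring1
        | linear_combination hdet
  have h2 : (!![P, Q; R, S] : Matrix (Fin 2) (Fin 2) (Adl K)) * !![S, -Q; -R, P] = 1 := by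
    ext i j
    fin_cases i <;> fin_cases j <;>
      simp [Matrix.mul_apply, Fin.sum_univ_two] <;>
      first
        | ring1
        | linear_combination hdet
  let κ : G K := ⟨!![S, -Q; -R, P], !![P, Q; R, S], h1, h2⟩
  have hκ : (κ : Matrix (Fin 2) (Fin 2) (Adl K)) = !![S, -Q; -R, P] := rfl
  have hκi : ((κ⁻¹ : G K) : Matrix (Fin 2) (Fin 2) (Adl K)) = !![P, Q; R, S] := rfl
  refine ⟨g * κ⁻¹, κ, by rw [inv_mul_cancel_right], ?_, ⟨fun v => ⟨?_, ?_⟩, fun w => ?_⟩⟩
  · rw [Units.val_mul, hκi, Matrix.mul_apply, Fin.sum_univ_two]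
    simpa using hrow
  · intro i j
    simp only [finComp, hκ]
    fin_cases i <;> fin_cases j
    · simpa [hSdef] using hS v
    · simpa [hQdef] using (v.adicCompletionIntegers K).neg_mem _ (hQ v)
    · simpa [hRdef] using (v.adicCompletionIntegers K).neg_mem _ (hR v)
    · simpa [hPdef] using hP v
  · intro i j
    simp only [finComp, hκi]
    fin_cases i <;> fin_cases j
    · simpa [hPdef] using hP v
    · simpa [hQdef] using hQ v
    · simpa [hRdef] using hR v
    · simpa [hSdef] using hS v
  · have hmat : infComp w κ =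
        (!![InfinitePlace.Completion.extensionEmbedding w (Si w),
            -InfinitePlace.Completion.extensionEmbedding w (Qi w);
          -InfinitePlace.Completion.extensionEmbedding w (Ri w),
            InfinitePlace.Completion.extensionEmbedding w (Pi w)] :
            Matrix (Fin 2) (Fin 2) ℂ) := by
      ext i j
      simp only [infComp, hκ]
      fin_cases i <;> fin_cases j <;> simp [hPdef, hQdef, hRdef, hSdef]
    rw [hmat]
    exact ⟨hUi w, hDi w⟩

end Fermat.Agent.LT.T1.H729
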