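import Mathlib
import Fermat.Agent.LT.H556.A0
import Fermat.Agent.LT.T1.Spec
import Fermat.Agent.LT.T1.H729.Iwasawa

/-!
# Row LT, tower T1 (volunteer helper729): the module `adNorm` on ideles

OFF-MAIN.  For `T1.adNorm` of `LT/T1/Spec.lean` (helper54):

* `adNorm_pos729`, `adNorm_mul729`, `adNorm_ratUnit729` : positivity and multiplicativity on ideles,
  product formula (the first three clauses of `T1.AdNormC`);
* `adNorm_eq_one729` : `adNorm x = 1` when all components have norm one.
-/

set_option autoImplicit false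

open IsDedekindDomain NumberField
open Fermat.Agent.LT.H556.A0

noncomputable section

namespace Fermat.Agent.LT.T1.H729

set_option linter.unusedSectionVars false

variable (K : Type) [Field K] [NumberField K]

/-- The norm of an element of valuation one is one. -/
theorem norm_eq_one_of_valued_eq_one729 (v : HeightOneSpectrum (𝓞 K)) (x : v.adicCompletion K)
    (h : Valued.v x = 1) : ‖x‖ = 1 := by
  rw [NumberField.FinitePlace.norm_def, h, map_one]
  rfl

/-- The finite part of an idele is a unit of the finite adele ring. -/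
theorem isUnit_snd729 (x : (Adl K)ˣ) : IsUnit ((x : Adl K).2) :=
  (x.isUnit).map (RingHom.snd (InfiniteAdeleRing K) (FiniteAdeleRing (𝓞 K) K))

/-- The infinite components of an idele are non-zero. -/
theorem inf_ne_zero729 (x : (Adl K)ˣ) (w : InfinitePlace K) : (x : Adl K).1 w ≠ 0 :=
  ((x.isUnit).map (projInf729 w)).ne_zero

/-- The finite components of an idele are non-zero. -/
theorem fin_ne_zero729 (x : (Adl K)ˣ) (v : HeightOneSpectrum (𝓞 K)) : (x : Adl K).2 v ≠ 0 :=
  ((x.isUnit).map (projFin729 v)).ne_zero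

/-- The finite components of an idele have norm one at almost all places. -/
theorem finite_mulSupport_fin729 (x : (Adl K)ˣ) :
    (Function.mulSupport fun v : HeightOneSpectrum (𝓞 K) => ‖(x : Adl K).2 v‖).Finite := by
  have h := (FiniteAdeleRing.isUnit_iff.mp (isUnit_snd729 K x)).2
  rw [Filter.eventually_cofinite] at h
  refine h.subset ?_
  intro v hv
  simp only [Function.mem_mulSupport] at hv
  simp only [Set.mem_ofPred_eq]
  intro h1
  exact hv (norm_eq_one_of_valued_eq_one729 K v _ h1)

/-- **Positivity** of the module on ideles. -/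
theorem adNorm_pos729 (x : (Adl K)ˣ) : 0 < Fermat.Agent.LT.T1.adNorm K (x : Adl K) := by
  unfold Fermat.Agent.LT.T1.adNorm
  refine mul_pos (Finset.prod_pos fun w _ => pow_pos (norm_pos_iff.mpr (inf_ne_zero729 K x w)) _) ?_
  rw [finprod_eq_prod _ (finite_mulSupport_fin729 K x)]
  exact Finset.prod_pos fun v _ => norm_pos_iff.mpr (fin_ne_zero729 K x v)

/-- **Multiplicativity** of the module on ideles. -/
theorem adNorm_mul729 (x y : (Adl K)ˣ) :
    Fermat.Agent.LT.T1.adNorm K ((x * y : (Adl K)ˣ) : Adl K) =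
      Fermat.Agent.LT.T1.adNorm K (x : Adl K) * Fermat.Agent.LT.T1.adNorm K (y : Adl K) := by
  unfold Fermat.Agent.LT.T1.adNorm
  have hinf : ∀ w : InfinitePlace K, ‖((x * y : (Adl K)ˣ) : Adl K).1 w‖ ^ w.mult =
      ‖(x : Adl K).1 w‖ ^ w.mult * ‖(y : Adl K).1 w‖ ^ w.mult := by
    intro w
    have : ((x * y : (Adl K)ˣ) : Adl K).1 w = (x : Adl K).1 w * (y : Adl K).1 w := by
      rw [Units.val_mul]
      exact map_mul (projInf729 w) _ _
    rw [this, norm_mul, mul_pow]
  have hfin : ∀ v : HeightOneSpectrum (𝓞 K), ‖((x * y : (Adl K)ˣ) : Adl K).2 v‖ =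
      ‖(x : Adl K).2 v‖ * ‖(y : Adl K).2 v‖ := by
    intro v
    have : ((x * y : (Adl K)ˣ) : Adl K).2 v = (x : Adl K).2 v * (y : Adl K).2 v := by
      rw [Units.val_mul]
      exact map_mul (projFin729 v) _ _
    rw [this, norm_mul]
  simp_rw [hinf, hfin]
  rw [Finset.prod_mul_distrib,
    finprod_mul_distrib (finite_mulSupport_fin729 K x) (finite_mulSupport_fin729 K y)]
  ring

/-- `adNorm x = 1` when every component of `x` has norm one. -/
theorem adNorm_eq_one729 (x : Adl K) (hinf : ∀ w : InfinitePlace K, ‖x.1 w‖ = 1)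
    (hfin : ∀ v : HeightOneSpectrum (𝓞 K), ‖x.2 v‖ = 1) :
    Fermat.Agent.LT.T1.adNorm K x = 1 := by
  unfold Fermat.Agent.LT.T1.adNorm
  simp [hinf, hfin]

/-- **Product formula**: the module of a principal idele is one. -/
theorem adNorm_ratUnit729 (ξ : Kˣ) :
    Fermat.Agent.LT.T1.adNorm K ((Fermat.Agent.LT.T1.ratUnit K ξ : (Adl K)ˣ) : Adl K) = 1 := by
  unfold Fermat.Agent.LT.T1.adNorm
  have hξ : (ξ : K) ≠ 0 := ξ.ne_zero
  have h := NumberField.prod_abs_eq_one (K := K) hξ
  have hinf : ∀ w : InfinitePlace K,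
      ‖((Fermat.Agent.LT.T1.ratUnit K ξ : (Adl K)ˣ) : Adl K).1 w‖ = w (ξ : K) := by
    intro w
    change ‖((ξ : K) : w.Completion)‖ = _
    rw [InfinitePlace.Completion.norm_coe]
    rfl
  have hfin : ∀ v : HeightOneSpectrum (𝓞 K),
      ‖((Fermat.Agent.LT.T1.ratUnit K ξ : (Adl K)ˣ) : Adl K).2 v‖ =
        NumberField.FinitePlace.mk v (ξ : K) := by
    intro v
    rfl
  simp_rw [hinf, hfin]
  rw [← h]
  congr 1
  rw [← finprod_comp_equiv (NumberField.FinitePlace.equivHeightOneSpectrum (K := K)).symm]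
  refine finprod_congr fun v => ?_
  rw [NumberField.FinitePlace.equivHeightOneSpectrum_symm_apply]
  rfl

end Fermat.Agent.LT.T1.H729
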