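import Mathlib
import Fermat.Agent.LT.H556.A0
import Fermat.Agent.LT.T1.Spec
import Fermat.Agent.LT.T1.H729.AdNorm

/-!
# Row LT, tower T1 (volunteer helper729): continuity of the module, `T1.AdNormC` VERBATIM

OFF-MAIN.  `adNormC729 K : Fermat.Agent.LT.T1.AdNormC K`.
-/

set_option autoImplicit false

open IsDedekindDomain NumberField
open Fermat.Agent.LT.H556.A0

noncomputable section

namespace Fermat.Agent.LT.T1.H729

set_option linter.unusedSectionVars false

variable (K : Type) [Field K] [NumberField K]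

/-- An element of `𝒪_v` whose inverse is in `𝒪_v` has norm one. -/
theorem norm_eq_one_of_mem_of_inv_mem729 (v : HeightOneSpectrum (𝓞 K))
    (a b : v.adicCompletion K) (ha : a ∈ v.adicCompletionIntegers K)
    (hb : b ∈ v.adicCompletionIntegers K) (hab : a * b = 1) : ‖a‖ = 1 := by
  apply norm_eq_one_of_valued_eq_one729
  rw [HeightOneSpectrum.mem_adicCompletionIntegers] at ha hb
  have h1 : Valued.v a * Valued.v b = 1 := by rw [← map_mul, hab, map_one]
  rcases ha.lt_or_eq with hlt | heq
  · exfalso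
    have hb0 : Valued.v b ≠ 0 := by
      intro h0
      rw [h0, mul_zero] at h1
      exact zero_ne_one h1
    have : Valued.v a * Valued.v b < 1 * Valued.v b :=
      mul_lt_mul_of_pos_right hlt (zero_lt_iff.mpr hb0)
    rw [h1, one_mul] at this
    exact absurd hb (not_le.mpr this)
  · exact heq

/-- The open set of ideles which are units of `𝒪_v` outside the finite set `S`. -/
def unitsOutside729 (S : Set (HeightOneSpectrum (𝓞 K))) : Set (Adl K)ˣ :=
  {x | (∀ v, v ∉ S → (x : Adl K).2 v ∈ v.adicCompletionIntegers K) ∧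
    ∀ v, v ∉ S → ((x⁻¹ : (Adl K)ˣ) : Adl K).2 v ∈ v.adicCompletionIntegers K}

theorem isOpen_unitsOutside729 (S : Set (HeightOneSpectrum (𝓞 K))) :
    IsOpen (unitsOutside729 K S) := by
  have hopen : IsOpen {f : FiniteAdeleRing (𝓞 K) K |
      ∀ v : HeightOneSpectrum (𝓞 K), v ∉ S → f v ∈ v.adicCompletionIntegers K} :=
    RestrictedProduct.isOpen_forall_imp_mem (fun v => Valued.isOpen_valuationSubring _)
  have h1 : Continuous fun x : (Adl K)ˣ => (x : Adl K).2 :=
    continuous_snd.comp Units.continuous_val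
  have h2 : Continuous fun x : (Adl K)ˣ => ((x⁻¹ : (Adl K)ˣ) : Adl K).2 :=
    continuous_snd.comp Units.continuous_coe_inv
  exact (hopen.preimage h1).inter (hopen.preimage h2)

/-- **Continuity** of the module on the idele group. -/
theorem continuous_adNorm729 :
    Continuous fun x : (Adl K)ˣ => Fermat.Agent.LT.T1.adNorm K (x : Adl K) := by
  classical
  rw [continuous_iff_continuousAt]
  intro x₀
  set S : Set (HeightOneSpectrum (𝓞 K)) :=
    {v | ¬ ((x₀ : Adl K).2 v ∈ v.adicCompletionIntegers K ∧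
      ((x₀⁻¹ : (Adl K)ˣ) : Adl K).2 v ∈ v.adicCompletionIntegers K)} with hSdef
  have hS : S.Finite := by
    have h1 : ∀ᶠ v in Filter.cofinite, (x₀ : Adl K).2 v ∈ v.adicCompletionIntegers K :=
      ((x₀ : Adl K).2).2
    have h2 : ∀ᶠ v in Filter.cofinite,
        ((x₀⁻¹ : (Adl K)ˣ) : Adl K).2 v ∈ v.adicCompletionIntegers K :=
      (((x₀⁻¹ : (Adl K)ˣ) : Adl K).2).2
    exact Filter.eventually_cofinite.mp (h1.and h2)
  have hx₀ : x₀ ∈ unitsOutside729 K S :=
    ⟨fun v hv => (not_not.mp hv).1, fun v hv => (not_not.mp hv).2⟩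
  set F : (Adl K)ˣ → ℝ := fun x =>
    (∏ w : InfinitePlace K, ‖(x : Adl K).1 w‖ ^ w.mult) *
      ∏ v ∈ hS.toFinset, ‖(x : Adl K).2 v‖ with hFdef
  have hval1 : ∀ w : InfinitePlace K, Continuous fun x : (Adl K)ˣ => (x : Adl K).1 w :=
    fun w => (continuous_apply w).comp (continuous_fst.comp Units.continuous_val)
  have hval2 : ∀ v : HeightOneSpectrum (𝓞 K), Continuous fun x : (Adl K)ˣ => (x : Adl K).2 v :=
    fun v => (RestrictedProduct.continuous_eval v).comp
      (continuous_snd.comp Units.continuous_val)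
  have hF : Continuous F := by
    refine Continuous.mul ?_ ?_
    · exact continuous_finsetProd _ fun w _ => (continuous_norm.comp (hval1 w)).pow _
    · exact continuous_finsetProd _ fun v _ => continuous_norm.comp (hval2 v)
  have heq : ∀ x ∈ unitsOutside729 K S, Fermat.Agent.LT.T1.adNorm K (x : Adl K) = F x := by
    intro x hx
    unfold Fermat.Agent.LT.T1.adNorm
    rw [hFdef]
    congr 1
    apply finprod_eq_prod_of_mulSupport_subset
    intro v hv
    rw [Function.mem_mulSupport] at hv
    rw [Finset.mem_coe, Set.Finite.mem_toFinset]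
    by_contra hvS
    refine hv (norm_eq_one_of_mem_of_inv_mem729 K v _ _ (hx.1 v hvS) (hx.2 v hvS) ?_)
    have : (x : Adl K) * ((x⁻¹ : (Adl K)ˣ) : Adl K) = 1 := by
      rw [← Units.val_mul, mul_inv_cancel, Units.val_one]
    have h3 := congrArg (projFin729 v) this
    rw [map_mul, map_one] at h3
    exact h3
  exact hF.continuousAt.congr
    (Filter.eventuallyEq_of_mem ((isOpen_unitsOutside729 K S).mem_nhds hx₀)
      (fun x hx => (heq x hx).symm))

/-- **`T1.AdNormC`**, verbatim. -/
theorem adNormC729 : Fermat.Agent.LT.T1.AdNormC K :=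
  ⟨adNorm_pos729 K, adNorm_mul729 K, adNorm_ratUnit729 K, continuous_adNorm729 K⟩

end Fermat.Agent.LT.T1.H729
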